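import Mathlib
import Fermat.Agent.Lib.ModCK.HolEmbK
import Fermat.Agent.Lib.ModC.HolModel

/-!
# The models at the finite base points, over a general coefficient field

The same as `ModC/HolModel.lean`, for a field `K` with an embedding `σ : K →+* ℂ`.
-/

set_option autoImplicit false
set_option linter.unusedSectionVars false

open UpperHalfPlane Complex Filter Topology CongruenceSubgroup
open scoped Manifold MatrixGroups

namespace Fermat.Agent.Lib.ModCK

open Fermat.Agent.Lib.FF Fermat.Agent.Lib.ModJ ModularCurve Fermat.Agent.Lib.ModC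

variable {K : Type*} [Field K] [Algebra ℚ K] (σ : K →+* ℂ)

variable (N : ℕ) [NeZero N]

/-- the `j`-function as an element of the function field of `X₀(N)` over `K`. -/
noncomputable def jK (K : Type*) [Field K] [Algebra ℚ K] (N : ℕ) [NeZero N] : ↥(FFK K N) :=
  ⟨coeffEmb K jq,
    coeffEmb_mem_laurentBaseChange K
      (by have := jqd_mem_full N (one_dvd N); rwa [qExpand_one_apply] at this)⟩

theorem coe_jK : ((jK K N : ↥(FFK K N)) : LaurentSeries K) = coeffEmb K jq := rfl

theorem genF_idxOne : genF (K := K) N (holIdxOne N) = jK K N := by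
  apply Subtype.ext
  show MvPolynomial.aeval (gensK K N) (MvPolynomial.X (holIdxOne N)) = coeffEmb K jq
  rw [MvPolynomial.aeval_X, gensK_eq]
  congr 1
  exact qExpand_one_apply _

theorem tau_eq_iff (γ γ' : SL(2, ℤ)) : tau σ N γ = tau σ N γ' ↔ γ⁻¹ * γ' ∈ Gamma0 N := by
  constructor
  · intro h
    have h1 := congrArg (fun τ => τ (genF (K := K) N (holIdxN N))) h
    simp only [tau_genF] at h1
    have h2 := IsFractionRing.injective Hol Mer h1
    have hN : ((⟨N, Nat.pos_of_ne_zero (NeZero.ne N)⟩ : ℕ+) : ℕ) = N := rfl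
    have := mem_Gamma0_of_jFunD_smul_eq ⟨N, Nat.pos_of_ne_zero (NeZero.ne N)⟩ (γ⁻¹ * γ') ?_
    · exact this
    · intro z
      have h3 := congrArg (fun f : Hol => (f : ℍ → ℂ) (γ' • z)) h2
      simp only [holAct_apply, jHol_apply, inv_smul_smul] at h3
      rw [mul_smul]
      exact h3
  · intro h
    have : γ' = γ * (γ⁻¹ * γ') := by rw [mul_inv_cancel_left]
    rw [this]
    exact (tau_mul_of_mem σ N γ _ h).symm

theorem tau_jK (γ : SL(2, ℤ)) :
    tau σ N γ (jK K N) = algebraMap Hol Mer (jHol 1) := by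
  have h : holAct γ (jHol (holIdxOne N).1) = jHol 1 :=
    holAct_jHol_of_mem_Gamma0 (N := 1) 1 (by simp) γ (mem_Gamma0_one γ)
  rw [← genF_idxOne, tau_genF, h]

theorem tau_jK_sub (γ : SL(2, ℤ)) (a : K) :
    tau σ N γ (jK K N - algebraMap K _ a) =
      algebraMap Hol Mer (jHol 1 - constHol (σ a)) := by
  rw [map_sub, tau_jK, tau_algebraMap, map_sub]

theorem holExt_jHol_sub (z₀ : ℍ) (c : ℂ) (ha : c = jFun z₀) :
    holExt (jHol 1 - constHol c) = fun w => jC w - jC z₀ := by
  ext w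
  show jFunD 1 (ofComplex w) - c = jC w - jC z₀
  rw [ha, jC_coe]
  congr 1
  show jFun (pnatSMul 1 (ofComplex w)) = jFun (ofComplex w)
  congr 1
  apply UpperHalfPlane.ext
  rw [coe_pnatSMul]
  simp

theorem jHol_sub_ne_zero (c : ℂ) : jHol 1 - constHol c ≠ 0 := by
  intro h
  obtain ⟨z, hz⟩ := jFun_surjective (c + 1)
  have h1 := congrArg (fun f : Hol => (f : ℍ → ℂ) z) h
  have h2 : jFunD 1 z - c = 0 := h1
  have h3 : jFunD 1 z = jFun z := by
    show jFun (pnatSMul 1 z) = jFun z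
    congr 1
    apply UpperHalfPlane.ext
    rw [coe_pnatSMul]
    simp
  rw [h3, hz] at h2
  simp at h2

/-- The model at a base point `z₀` with `j(z₀) = σ a`. -/
noncomputable def modelAt (z₀ : ℍ) (a : K) (ha : σ a = jFun z₀) (o : ℕ)
    (ho : analyticOrderAt (fun w => jC w - jC z₀) (z₀ : ℂ) = o) (δ : SL(2, ℤ))
    (hδ : δ • z₀ = z₀)
    (hdvd : ∀ (γ : SL(2, ℤ)) (f : ↥(FFK K N)) (h : ℕ), f ≠ 0 → 0 < h →
      γ⁻¹ * δ ^ h * γ ∈ Gamma0 N → (o : ℤ) ∣ h * ordAt z₀ (tau σ N γ f)) :
    Model K ↥(FFK K N) N (jK K N - algebraMap K _ a) o δ where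
  Ω := Mer
  w := ordAt z₀
  isOrdFun := isOrdFun_ordAt z₀
  τ := tau σ N
  τ_eq_iff := tau_eq_iff σ N
  τ_const γ c := by rw [tau_algebraMap, tau_algebraMap]
  τ_y γ := by rw [tau_jK_sub, tau_jK_sub]
  w_const γ c hc := by
    rw [tau_algebraMap]
    have hc' : σ c ≠ 0 := (map_ne_zero σ).mpr hc
    have hne : constHol (σ c) ≠ 0 :=
      (map_ne_zero_iff _ constHol_injective).mpr hc'
    rw [ordAt_algebraMap z₀ hne, holOrd_constHol z₀ hc']
  w_y := by
    rw [tau_jK_sub, ordAt_algebraMap z₀ (jHol_sub_ne_zero (σ a)), holOrd,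
      holExt_jHol_sub z₀ (σ a) ha, analyticOrderNatAt, ho]
    rfl
  w_stab γ f := by
    rw [tau_mul, ordAt_merAct]
    congr 1
    conv_lhs => rw [← hδ]
    rw [inv_smul_smul]
  w_dvd := hdvd

/-- invariance of `tau σ N γ f` under a stabiliser of the coset -/
theorem merAct_tau_of_mem (δ γ : SL(2, ℤ)) (h : γ⁻¹ * δ * γ ∈ Gamma0 N)
    (f : ↥(FFK K N)) : merAct δ (tau σ N γ f) = tau σ N γ f := by
  rw [← tau_mul]
  have : δ * γ = γ * (γ⁻¹ * δ * γ) := by group
  rw [this, tau_mul_of_mem σ N γ _ h]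

theorem tau_ne_zero (γ : SL(2, ℤ)) {f : ↥(FFK K N)} (hf : f ≠ 0) :
    tau σ N γ f ≠ 0 := (map_ne_zero (tau σ N γ)).mpr hf

/-- The model at any point `z₀` which is not an elliptic point, `a = j(z₀)`. -/
noncomputable def modelPoint (z₀ : ℍ) (a : K) (ha : σ a = jFun z₀) (h0 : a ≠ 0) (h1 : a ≠ 1728) :
    Model K ↥(FFK K N) N (jK K N - algebraMap K _ a) 1 1 :=
  modelAt σ N z₀ a ha 1
    (by
      have e0 : jFun z₀ ≠ 0 := by rw [← ha]; exact (map_ne_zero σ).mpr h0
      have e1 : jFun z₀ ≠ 1728 := by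
        rw [← ha]
        intro h
        apply h1
        apply σ.injective
        rw [h]
        exact (map_ofNat σ 1728).symm
      rw [analyticOrderAt_jC_sub_generic z₀ e0 e1]
      rfl)
    1 (one_smul _ _)
    (fun γ f h _ _ _ => by
      rw [Nat.cast_one]
      exact one_dvd _)

/-- The model at a generic point, when `σ` is surjective onto the `j`-value. -/
noncomputable def modelGeneric (a : K) (h0 : a ≠ 0) (h1 : a ≠ 1728) :
    Model K ↥(FFK K N) N (jK K N - algebraMap K _ a) 1 1 :=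
  modelPoint σ N (jFun_surjective (σ a)).choose a
    (jFun_surjective (σ a)).choose_spec.symm h0 h1

/-- The model at `ρ`. -/
noncomputable def modelZero :
    Model K ↥(FFK K N) N (jK K N - algebraMap K _ 0) 3
      (ModularGroup.S * ModularGroup.T) :=
  modelAt σ N ρ 0 (by rw [map_zero, jFun_rho]) 3 (by rw [analyticOrderAt_jC_rho]; rfl)
    (ModularGroup.S * ModularGroup.T) ST_smul_rho
    (fun γ f h hf _ hγ =>
      w_dvd_ST N (fun γ => ordAt ρ (tau σ N γ f))
        (fun γ hγ => dvd_ordAt_of_invariant ρ _ ST_smul_rho 3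
          (by rw [multiplier_ST]; exact isPrimitiveRoot_rho)
          _ (tau_ne_zero σ N γ hf) (merAct_tau_of_mem σ N _ γ hγ f)) γ h hγ)

/-- The model at `i`. -/
noncomputable def model1728 :
    Model K ↥(FFK K N) N (jK K N - algebraMap K _ 1728) 2
      ModularGroup.S :=
  modelAt σ N UpperHalfPlane.I 1728 (by rw [jFun_I]; exact map_ofNat σ 1728) 2
    (by rw [analyticOrderAt_jC_I]; rfl)
    ModularGroup.S S_smul_I
    (fun γ f h hf _ hγ =>
      w_dvd_S N (fun γ => ordAt UpperHalfPlane.I (tau σ N γ f))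
        (fun γ hγ => dvd_ordAt_of_invariant UpperHalfPlane.I _ S_smul_I 2
          (by rw [multiplier_S]; exact isPrimitiveRoot_neg_one_two)
          _ (tau_ne_zero σ N γ hf) (merAct_tau_of_mem σ N _ γ hγ f)) γ h hγ)

end Fermat.Agent.Lib.ModCK
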