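import Mathlib
import Fermat.Agent.Lib.ModCK.HolModelK
import Fermat.Agent.Lib.ModC.InfModel
import Fermat.Agent.Lib.ModC.AsmAlg
import Fermat.Agent.S24.Glue

/-!
# The place counts of `j` on `X₀(N)` over a general algebraically closed field `K ⊆ ℂ`

For `K` algebraically closed of characteristic `0` with `σ : K →+* ℂ` (for `S20`: `K = ℂ`),
`F = FFK K N`, `x = jK K N`:

* `infModel σ N`: the model at the cusp `∞`;
* `isFF1_jK`, `finrank_jK`: `j` is a separating variable of degree `ψ(N)`;
* `nFibre_jK_generic`, `nFibre_jK_zero`, `nFibre_jK_1728`, `nPoles_jK`: the place counts;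
* `degree_divisor_differential`: the divisor of a nonzero differential has degree `2g - 2`,
  `g = genusFormula N`.
-/

set_option autoImplicit false
set_option linter.unusedSectionVars false

open AlgebraicCurve IntermediateField ModularCurve KaehlerDifferential
open scoped MatrixGroups

namespace Fermat.Agent.Lib.ModCK

open Fermat.Agent.Lib.FF Fermat.Agent.Lib.ModJ Fermat.Agent.Lib.ModC CongruenceSubgroup

variable {K : Type*} [Field K] [Algebra ℚ K] (σ : K →+* ℂ) (N : ℕ) [NeZero N]

theorem tauInf_jK (γ : SL(2, ℤ)) :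
    tauInf σ N γ (jK K N) = ModularCurve.qExpand ℂ N jqC := by
  have := tauInf_j σ N γ (jK K N).2
  exact this

theorem tauInf_jK_ne_zero (γ : SL(2, ℤ)) : tauInf σ N γ (jK K N) ≠ 0 := by
  rw [tauInf_jK]
  intro h
  have := order_qExpand_jqC N
  rw [h, HahnSeries.order_zero] at this
  have hN : (N : ℤ) ≠ 0 := by exact_mod_cast NeZero.ne N
  omega

theorem order_tauInf_jK_inv (γ : SL(2, ℤ)) :
    (tauInf σ N γ (jK K N)⁻¹).order = (N : ℤ) := by
  rw [map_inv₀]
  have h : (tauInf σ N γ (jK K N))⁻¹.order = -(tauInf σ N γ (jK K N)).order :=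
    isOrdFun_order.inv (tauInf_jK_ne_zero σ N γ)
  rw [h, tauInf_jK, order_qExpand_jqC, neg_neg]

/-- **the model at `∞`** -/
noncomputable def infModel : Model K ↥(FFK K N) N (jK K N)⁻¹ N ModularGroup.T where
  Ω := LaurentSeries ℂ
  w := fun L => L.order
  isOrdFun := isOrdFun_order
  τ := tauInf σ N
  τ_eq_iff := tauInf_eq_iff σ N
  τ_const γ c := by
    rw [tauInf_algebraMap, tauInf_algebraMap]
  τ_y γ := by
    rw [map_inv₀, map_inv₀, tauInf_jK, tauInf_jK]
  w_const γ c _ := order_tauInf_algebraMap σ N γ c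
  w_y := order_tauInf_jK_inv σ N 1
  w_stab γ f := by
    have := order_tauInf_T_zpow_mul σ N 1 γ f
    rwa [zpow_one] at this
  w_dvd γ f h hf _ hγ := by
    have := width_dvd σ N γ (h : ℤ) (by rwa [zpow_natCast]) hf
    exact this

include σ

/-- `j` is a separating variable of the function field of `X₀(N)` over `K`. -/
theorem isFF1_jK : IsFF1 K ↥(FFK K N) (jK K N) :=
  ⟨(finrank_le_dedekindPsi N σ (jK K N) rfl).1, (finrank_le_dedekindPsi N σ (jK K N) rfl).2.1⟩

/-- The degree of `j` on `X₀(N)` is the index `ψ(N)`. -/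
theorem finrank_jK : Module.finrank K⟮jK K N⟯ ↥(FFK K N) = dedekindPsi N := by
  classical
  apply le_antisymm (finrank_le_dedekindPsi N σ (jK K N) rfl).2.2
  haveI := finite_quotient_Gamma0 N
  letI : Fintype (SL(2, ℤ) ⧸ Gamma0 N) := Fintype.ofFinite _
  have hx := isFF1_jK σ N
  have hy : IsFF1 K ↥(FFK K N) (jK K N)⁻¹ :=
    isFF1_of_transcendental hx _ (transcendental_inv hx.transcendental)
  haveI : FiniteDimensional K⟮(jK K N)⁻¹⟯ ↥(FFK K N) := hy.finite
  let M := infModel σ N
  let τX : (SL(2, ℤ) ⧸ Gamma0 N) → (↥(FFK K N) →+* M.Ω) :=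
    Quotient.lift M.τ (fun γ γ' h => by
      rw [M.τ_eq_iff]
      exact QuotientGroup.leftRel_apply.mp h)
  have hτX : ∀ γ : SL(2, ℤ), τX (γ : SL(2, ℤ) ⧸ Gamma0 N) = M.τ γ := fun γ => rfl
  have hinj : Function.Injective τX := by
    intro x x' h
    induction x using QuotientGroup.induction_on with
    | H γ =>
      induction x' using QuotientGroup.induction_on with
      | H γ' =>
        rw [hτX, hτX, M.τ_eq_iff] at h
        exact QuotientGroup.eq.mpr h
  have hK : ∀ (g g' : SL(2, ℤ) ⧸ Gamma0 N) (c : K),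
      τX g (algebraMap _ _ c) = τX g' (algebraMap _ _ c) := by
    intro x x' c
    induction x using QuotientGroup.induction_on with
    | H γ =>
      induction x' using QuotientGroup.induction_on with
      | H γ' =>
        rw [hτX, hτX, M.τ_const γ, M.τ_const γ']
  have hY : ∀ (g g' : SL(2, ℤ) ⧸ Gamma0 N), τX g (jK K N)⁻¹ = τX g' (jK K N)⁻¹ := by
    intro x x'
    induction x using QuotientGroup.induction_on with
    | H γ =>
      induction x' using QuotientGroup.induction_on with
      | H γ' =>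
        rw [hτX, hτX, M.τ_y γ, M.τ_y γ']
  have h := card_le_finrank_of_injective (K := K) (y := (jK K N)⁻¹) τX hinj hK hY
  rw [finrank_adjoin_inv] at h
  rw [← Fermat.Agent.Lib.Gamma0Count.card_quotient N, Nat.card_eq_fintype_card]
  exact h

section Counts

variable [IsAlgClosed K] [CharZero K]

theorem nFibre_jK_generic (a : K) (h0 : a ≠ 0) (h1 : a ≠ 1728) :
    nFibre (jK K N) a = dedekindPsi N :=
  nFibre_generic_of_model (isFF1_jK σ N) (finrank_jK σ N) a (modelGeneric σ N a h0 h1)

theorem nFibre_jK_zero : 3 * nFibre (jK K N) (0 : K) = dedekindPsi N + 2 * nuThree N :=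
  nFibre_zero_of_model (isFF1_jK σ N) (finrank_jK σ N) (modelZero σ N)

theorem nFibre_jK_1728 : 2 * nFibre (jK K N) (1728 : K) = dedekindPsi N + nuTwo N :=
  nFibre_1728_of_model (isFF1_jK σ N) (finrank_jK σ N) (model1728 σ N)

theorem nPoles_jK : nPoles (K := K) (jK K N) = cuspCount N :=
  nPoles_of_model (isFF1_jK σ N) (finrank_jK σ N) (infModel σ N)

/-- **Riemann–Hurwitz for `X₀(N)`**: the divisor of a nonzero differential of the function field
of `X₀(N)` has degree `2g - 2`, where `g = genusFormula N`. -/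
theorem degree_divisor_differential (ω : Ω[↥(FFK K N)⁄K]) (hω : ω ≠ 0)
    (W : Divisor K ↥(FFK K N)) (hW : ∀ v : Place K ↥(FFK K N), W v = v.ordDifferential ω) :
    ∃ g : ℕ, (g : ℚ) = genusFormula N ∧ Divisor.degree W = 2 * (g : ℤ) - 2 := by
  classical
  obtain ⟨g, hg⟩ := Fermat.Agent.S24.exists_nat_eq_genusFormula N
  refine ⟨g, hg, ?_⟩
  have hx := isFF1_jK σ N
  have hpf := placeFacts_of_isFF1 hx
  have hdeg := finrank_jK σ N
  have hne : (0 : K) ≠ 1728 := by norm_num
  have h := degree_canonical_of_facts hx hpf {0, 1728}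
    (by
      intro a ha
      rw [Finset.mem_insert, Finset.mem_singleton, not_or] at ha
      rw [hdeg]
      exact nFibre_jK_generic σ N a ha.1 ha.2) ω hω W hW
  rw [h, Finset.sum_pair hne, hdeg, nPoles_jK σ N]
  rw [genusFormula] at hg
  have h0' : (3 : ℚ) * nFibre (jK K N) (0 : K) = dedekindPsi N + 2 * nuThree N := by
    exact_mod_cast nFibre_jK_zero σ N
  have h1' : (2 : ℚ) * nFibre (jK K N) (1728 : K) = dedekindPsi N + nuTwo N := by
    exact_mod_cast nFibre_jK_1728 σ N
  have : (((dedekindPsi N : ℤ) - nFibre (jK K N) (0 : K)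
      + ((dedekindPsi N : ℤ) - nFibre (jK K N) (1728 : K))
      - (dedekindPsi N : ℤ) - (cuspCount N : ℤ) : ℤ) : ℚ) = ((2 * (g : ℤ) - 2 : ℤ) : ℚ) := by
    push_cast
    linarith
  exact_mod_cast this

end Counts

end Fermat.Agent.Lib.ModCK
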