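import Mathlib
import Fermat.Agent.Lib.ModCK.GlueK
import Fermat.Agent.Lib.FunctionField.OrdPlace

/-!
# Points and cusps give places of the function field of `X₀(N)`

For `K` with `σ : K →+* ℂ`, `F = FFK K N`:

* `exists_place_at`: a point `z₀ ∈ ℍ` with `j(z₀) ∈ σ(K)` gives a place `v` of `F` and `d > 0`
  with `ordAt z₀ (embAn σ N f) = d * v.ord f`;
* `exists_place_cusp`: a cusp `γ ∞` gives a place `v` of `F` and `d > 0` with
  `(tauInf σ N γ f).order = d * v.ord f`.
-/

set_option autoImplicit false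
set_option linter.unusedSectionVars false

open AlgebraicCurve IntermediateField ModularCurve UpperHalfPlane
open scoped MatrixGroups

namespace Fermat.Agent.Lib.ModCK

open Fermat.Agent.Lib.FF Fermat.Agent.Lib.ModJ Fermat.Agent.Lib.ModC CongruenceSubgroup

variable {K : Type*} [Field K] [Algebra ℚ K] (σ : K →+* ℂ) (N : ℕ) [NeZero N]

theorem embAn_eq_tau_one (f : ↥(FFK K N)) : embAn σ N f = tau σ N 1 f := (tau_one σ N f).symm

theorem ordAt_embAn_algebraMap (z₀ : ℍ) (c : K) (hc : c ≠ 0) :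
    ordAt z₀ (embAn σ N (algebraMap K ↥(FFK K N) c)) = 0 := by
  rw [embAn_eq_tau_one, tau_algebraMap]
  have hc' : σ c ≠ 0 := (map_ne_zero σ).mpr hc
  have hne : constHol (σ c) ≠ 0 := (map_ne_zero_iff _ constHol_injective).mpr hc'
  rw [ordAt_algebraMap z₀ hne, holOrd_constHol z₀ hc']

theorem embAn_jK_sub (a : K) :
    embAn σ N (jK K N - algebraMap K _ a) = algebraMap Hol Mer (jHol 1 - constHol (σ a)) := by
  rw [embAn_eq_tau_one, tau_jK_sub]

theorem embAn_jK : embAn σ N (jK K N) = algebraMap Hol Mer (jHol 1) := by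
  rw [embAn_eq_tau_one, tau_jK]

theorem ordAt_embAn_jK_sub_pos (z₀ : ℍ) (a : K) (ha : σ a = jFun z₀) :
    0 < ordAt z₀ (embAn σ N (jK K N - algebraMap K _ a)) := by
  rw [embAn_jK_sub, ordAt_algebraMap z₀ (jHol_sub_ne_zero (σ a))]
  have h0 := holOrd_nonneg z₀ (jHol 1 - constHol (σ a))
  have h1 : holOrd z₀ (jHol 1 - constHol (σ a)) ≠ 0 := by
    intro h
    rcases (holOrd_eq_zero_iff z₀ _).mp h with h2 | h2
    · apply h2
      show jFunD 1 z₀ - σ a = 0
      rw [ha, sub_eq_zero]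
      show jFun (pnatSMul 1 z₀) = jFun z₀
      congr 1
      apply UpperHalfPlane.ext
      rw [coe_pnatSMul]
      simp
    · exact jHol_sub_ne_zero (σ a) h2
  omega

/-- **A point of `ℍ` gives a place.** -/
theorem exists_place_at (z₀ : ℍ) (a : K) (ha : σ a = jFun z₀) :
    ∃ (v : Place K ↥(FFK K N)) (d : ℕ), 0 < d ∧
      ∀ f : ↥(FFK K N), f ≠ 0 → ordAt z₀ (embAn σ N f) = d * v.ord f := by
  have ho := isOrdFun_comp (isOrdFun_ordAt z₀) (embAn σ N)
  obtain ⟨v, d, hd, -, hv⟩ := exists_place_of_ord (K := K)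
    (fun f : ↥(FFK K N) => ordAt z₀ (embAn σ N f)) ho.mul ho.add
    (fun c hc => ordAt_embAn_algebraMap σ N z₀ c (fun h => hc (by rw [h, map_zero])))
    ⟨jK K N - algebraMap K _ a, by
      intro h
      have := ordAt_embAn_jK_sub_pos σ N z₀ a ha
      rw [h, map_zero, ordAt_zero] at this
      exact lt_irrefl _ this,
      (ordAt_embAn_jK_sub_pos σ N z₀ a ha).ne'⟩
  exact ⟨v, d, hd, hv⟩

/-- **A cusp gives a place.** -/
theorem exists_place_cusp (γ : SL(2, ℤ)) :
    ∃ (v : Place K ↥(FFK K N)) (d : ℕ), 0 < d ∧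
      ∀ f : ↥(FFK K N), f ≠ 0 → (tauInf σ N γ f).order = d * v.ord f := by
  have ho := isOrdFun_comp isOrdFun_order (tauInf σ N γ)
  have hj : (tauInf σ N γ (jK K N)).order = -(N : ℤ) := by
    rw [tauInf_jK, order_qExpand_jqC]
  have hN : (N : ℤ) ≠ 0 := by exact_mod_cast NeZero.ne N
  obtain ⟨v, d, hd, -, hv⟩ := exists_place_of_ord (K := K)
    (fun f : ↥(FFK K N) => (tauInf σ N γ f).order) ho.mul ho.add
    (fun c _ => order_tauInf_algebraMap σ N γ c)
    ⟨jK K N, by
      intro h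
      rw [h, map_zero, HahnSeries.order_zero] at hj
      omega,
      by
        show (tauInf σ N γ (jK K N)).order ≠ 0
        rw [hj]
        omega⟩
  exact ⟨v, d, hd, hv⟩

end Fermat.Agent.Lib.ModCK
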