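import Mathlib
import Fermat.Agent.Lib.ModCK.Places

/-!
# The function field of `X₀(N)` over `ℂ` (for `S20`)

`FC N = ℂ(jq(q^d) : d ∣ N) ⊆ ℂ((q))`, `jFC N` the `j`-function, `embC N : FC N →+* Mer` the analytic
embedding. Specialisation of `ModCK/*` to `K = ℂ`, `σ = id`.
-/

set_option autoImplicit false
set_option linter.unusedSectionVars false

open AlgebraicCurve IntermediateField ModularCurve UpperHalfPlane KaehlerDifferential
open scoped MatrixGroups

namespace Fermat.Agent.Lib.ModCK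

open Fermat.Agent.Lib.FF Fermat.Agent.Lib.ModJ Fermat.Agent.Lib.ModC CongruenceSubgroup

variable (N : ℕ) [NeZero N]

/-- the function field of `X₀(N)` over `ℂ` -/
abbrev FC : Type := ↥(FFK ℂ N)

/-- the `j`-function in `FC N` -/
noncomputable def jFC : FC N := jK ℂ N

/-- the analytic embedding `FC N →+* Mer` -/
noncomputable def embC : FC N →+* Mer := embAn (RingHom.id ℂ) N

theorem isFF1_jFC : IsFF1 ℂ (FC N) (jFC N) := isFF1_jK (RingHom.id ℂ) N

theorem finrank_jFC : Module.finrank ℂ⟮jFC N⟯ (FC N) = dedekindPsi N :=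
  finrank_jK (RingHom.id ℂ) N

theorem placeFacts_FC : PlaceFacts ℂ (FC N) := placeFacts_of_isFF1 (isFF1_jFC N)

/-- the divisor of a nonzero differential on `X₀(N)` has degree `2g - 2`, `g = genusFormula N` -/
theorem degree_divisor_differential_FC (ω : Ω[FC N⁄ℂ]) (hω : ω ≠ 0)
    (W : Divisor ℂ (FC N)) (hW : ∀ v : Place ℂ (FC N), W v = v.ordDifferential ω) :
    ∃ g : ℕ, (g : ℚ) = genusFormula N ∧ Divisor.degree W = 2 * (g : ℤ) - 2 :=
  degree_divisor_differential (RingHom.id ℂ) N ω hω W hW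

theorem embC_algebraMap (c : ℂ) : embC N (algebraMap ℂ (FC N) c) = algebraMap Hol Mer (constHol c) := by
  have := tau_algebraMap (RingHom.id ℂ) N 1 c
  rwa [tau_one] at this

theorem embC_jFC : embC N (jFC N) = algebraMap Hol Mer (jHol 1) := embAn_jK (RingHom.id ℂ) N

/-- every point of `ℍ` gives a place of `FC N` -/
theorem exists_place_at_FC (z₀ : ℍ) :
    ∃ (v : Place ℂ (FC N)) (d : ℕ), 0 < d ∧
      ∀ f : FC N, f ≠ 0 → ordAt z₀ (embC N f) = d * v.ord f :=
  exists_place_at (RingHom.id ℂ) N z₀ (jFun z₀) rfl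

/-- every cusp gives a place of `FC N` -/
theorem exists_place_cusp_FC (γ : SL(2, ℤ)) :
    ∃ (v : Place ℂ (FC N)) (d : ℕ), 0 < d ∧
      ∀ f : FC N, f ≠ 0 → (tauInf (RingHom.id ℂ) N γ f).order = d * v.ord f :=
  exists_place_cusp (RingHom.id ℂ) N γ

end Fermat.Agent.Lib.ModCK
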